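import Mathlib.LinearAlgebra.FreeModule.Basic
import Mathlib.LinearAlgebra.Basis.Basic
import Mathlib.RingTheory.Ideal.Operations
import Mathlib.RingTheory.Ideal.Maps
import Mathlib.Algebra.Module.Torsion.Basic

set_option autoImplicit false

open Module

namespace Fermat.Agent.S57

lemma mem_smul_top_iff_repr {A N ι : Type*} [CommRing A] [AddCommGroup N] [Module A N]
    (B : Basis ι A N) (I : Ideal A) (x : N) :
    x ∈ I • (⊤ : Submodule A N) ↔ ∀ i, B.repr x i ∈ I := by
  rw [← B.span_eq, Submodule.mem_ideal_smul_span_iff_exists_sum]
  constructor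
  · rintro ⟨a, ha, rfl⟩ i
    have : B.repr (a.sum fun i c => c • B i) = a := by
      rw [← Finsupp.linearCombination_apply, B.repr_linearCombination]
    rw [this]
    exact ha i
  · intro h
    refine ⟨B.repr x, h, ?_⟩
    rw [← Finsupp.linearCombination_apply, B.linearCombination_repr]

theorem descent {A R N M : Type*} [CommRing A] [CommRing R] (ψ : A →+* R)
    (hψ : Function.Surjective ψ) (I : Ideal A) (hI : I ≤ RingHom.ker ψ)
    [AddCommGroup N] [Module A N] [Module.Free A N] [AddCommGroup M] [Module R M] [Nontrivial M]
    (π : N →+ M) (hπ : ∀ a x, π (a • x) = ψ a • π x) (hsurj : Function.Surjective π)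
    (hker : ∀ x, π x = 0 ↔ x ∈ I • (⊤ : Submodule A N)) :
    Module.Free R M ∧ Module.annihilator R M = ⊥ ∧ RingHom.ker ψ = I := by
  let B := Module.Free.chooseBasis A N
  have hπsum : ∀ a : Module.Free.ChooseBasisIndex A N →₀ A,
      π (Finsupp.linearCombination A B a) =
        Finsupp.linearCombination R (fun i => π (B i)) (a.mapRange ψ (map_zero ψ)) := by
    intro a
    rw [Finsupp.linearCombination_apply, Finsupp.linearCombination_apply,
      Finsupp.sum_mapRange_index (by simp), map_finsuppSum]
    simp [hπ]
  have hli : LinearIndependent R (fun i => π (B i)) := by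
    rw [linearIndependent_iff]
    intro l hl
    obtain ⟨a, rfl⟩ := Finsupp.mapRange_surjective ψ (map_zero ψ) hψ l
    rw [← hπsum, hker, mem_smul_top_iff_repr B, B.repr_linearCombination] at hl
    ext i
    simpa using hI (hl i)
  have hsp : ⊤ ≤ Submodule.span R (Set.range fun i => π (B i)) := by
    intro y _
    obtain ⟨x, rfl⟩ := hsurj y
    rw [← B.linearCombination_repr x, hπsum, ← Finsupp.range_linearCombination]
    exact LinearMap.mem_range_self _ _
  have hfree : Module.Free R M := Module.Free.of_basis (Basis.mk hli hsp)
  refine ⟨hfree, ?_, ?_⟩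
  · exact Module.annihilator_eq_bot.mpr inferInstance
  · refine le_antisymm ?_ hI
    intro a ha
    have hne : Nonempty (Module.Free.ChooseBasisIndex A N) := by
      by_contra h
      rw [not_nonempty_iff] at h
      have : Subsingleton N := B.repr.toEquiv.subsingleton
      have : Subsingleton M := hsurj.subsingleton
      exact not_subsingleton M this
    obtain ⟨i⟩ := hne
    have h0 : π (a • B i) = 0 := by
      rw [hπ, (RingHom.mem_ker).mp ha, zero_smul]
    rw [hker, mem_smul_top_iff_repr B] at h0
    simpa using h0 i

end Fermat.Agent.S57
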