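import Mathlib.RingTheory.Regular.RegularSequence
import Mathlib.RingTheory.MvPowerSeries.Inverse
import Mathlib.RingTheory.MvPowerSeries.Equiv
import Mathlib.RingTheory.DiscreteValuationRing.Basic

set_option autoImplicit false

open IsLocalRing Module RingTheory.Sequence MvPowerSeries

namespace Fermat.Agent.S57

section general

variable {σ : Type*} {R : Type*} [CommRing R]

lemma mem_ofList_map_X (l : List σ) (f : MvPowerSeries σ R) :
    f ∈ Ideal.ofList (l.map (X : σ → MvPowerSeries σ R)) ↔
      ∀ m : σ →₀ ℕ, (∀ j ∈ l, m j = 0) → coeff m f = 0 := by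
  induction l generalizing f with
  | nil =>
    simp only [List.map_nil, Ideal.ofList_nil, Submodule.mem_bot, List.not_mem_nil,
      IsEmpty.forall_iff, implies_true, forall_const]
    constructor
    · rintro rfl m; simp
    · intro h; ext m; simpa using h m
  | cons a l ih =>
    rw [List.map_cons, Ideal.ofList_cons, Submodule.mem_sup]
    constructor
    · rintro ⟨g, hg, h, hh, rfl⟩ m hm
      rw [Ideal.mem_span_singleton, X_dvd_iff] at hg
      rw [map_add, hg m (hm a List.mem_cons_self),
        (ih h).mp hh m (fun j hj => hm j (List.mem_cons_of_mem _ hj)), add_zero]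
    · intro hf
      classical
      obtain ⟨g, hg⟩ : ∃ g : MvPowerSeries σ R,
          ∀ m, coeff m g = if m a = 0 then 0 else coeff m f :=
        ⟨fun m => if m a = 0 then 0 else coeff m f, fun m => rfl⟩
      obtain ⟨h, hh⟩ : ∃ h : MvPowerSeries σ R,
          ∀ m, coeff m h = if m a = 0 then coeff m f else 0 :=
        ⟨fun m => if m a = 0 then coeff m f else 0, fun m => rfl⟩
      refine ⟨g, ?_, h, ?_, ?_⟩
      · rw [Ideal.mem_span_singleton, X_dvd_iff]
        intro m hm
        rw [hg, if_pos hm]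
      · rw [ih]
        intro m hm
        rw [hh]
        split_ifs with h
        · apply hf
          intro j hj
          rcases List.mem_cons.mp hj with rfl | hj
          · exact h
          · exact hm j hj
        · rfl
      · ext m
        rw [map_add, hg, hh]
        split_ifs <;> simp

lemma isSMulRegular_X_quot (l : List σ) (a : σ) (ha : a ∉ l) :
    IsSMulRegular (MvPowerSeries σ R ⧸
      (Ideal.ofList (l.map (X : σ → MvPowerSeries σ R)) • ⊤ : Submodule (MvPowerSeries σ R) (MvPowerSeries σ R)))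
      (X a : MvPowerSeries σ R) := by
  rw [isSMulRegular_quotient_iff_mem_of_smul_mem]
  intro f hf
  rw [smul_eq_mul, Ideal.mul_top, mem_ofList_map_X] at hf ⊢
  intro m hm
  classical
  have := hf (m + Finsupp.single a 1) (by
    intro j hj
    have hja : a ≠ j := fun h => ha (h ▸ hj)
    simp [hm j hj, hja])
  rw [smul_eq_mul, X_mul, X, coeff_add_mul_monomial, mul_one] at this
  exact this

lemma isSMulRegular_C_quot (l : List σ) (c : R) (hc : IsSMulRegular R c) :
    IsSMulRegular (MvPowerSeries σ R ⧸
      (Ideal.ofList (l.map (X : σ → MvPowerSeries σ R)) • ⊤ : Submodule (MvPowerSeries σ R) (MvPowerSeries σ R)))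
      (C c : MvPowerSeries σ R) := by
  rw [isSMulRegular_quotient_iff_mem_of_smul_mem]
  intro f hf
  rw [smul_eq_mul, Ideal.mul_top, mem_ofList_map_X] at hf ⊢
  intro m hm
  have := hf m hm
  rw [smul_eq_mul, coeff_C_mul] at this
  exact hc.right_eq_zero_of_smul this

lemma isWeaklyRegular_map_X (l : List σ) (hl : l.Nodup) :
    IsWeaklyRegular (MvPowerSeries σ R) (l.map (X : σ → MvPowerSeries σ R)) := by
  induction l using List.reverseRecOn with
  | nil => simp
  | append_singleton l a ih =>
    rw [List.nodup_append] at hl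
    rw [List.map_append, isWeaklyRegular_append_iff, List.map_singleton,
      isWeaklyRegular_singleton_iff]
    refine ⟨ih hl.1, isSMulRegular_X_quot l a ?_⟩
    intro ha
    exact hl.2.2 a ha a (by simp) rfl

end general

end Fermat.Agent.S57

namespace Fermat.Agent.S57

section dvr

variable {𝒪 : Type*} [CommRing 𝒪] [IsDomain 𝒪] [IsDiscreteValuationRing 𝒪] (r : ℕ)

/-- The regular system of parameters `X₀, …, X_{r-1}, ϖ`. -/
noncomputable def regSeq (ϖ : 𝒪) : List (MvPowerSeries (Fin r) 𝒪) :=
  (List.finRange r).map (X : Fin r → MvPowerSeries (Fin r) 𝒪) ++ [C ϖ]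

omit [IsDomain 𝒪] [IsDiscreteValuationRing 𝒪] in
lemma regSeq_length (ϖ : 𝒪) : (regSeq r ϖ).length = r + 1 := by
  simp [regSeq]

omit [IsDiscreteValuationRing 𝒪] in
lemma isWeaklyRegular_regSeq {ϖ : 𝒪} (hϖ : ϖ ≠ 0) :
    IsWeaklyRegular (MvPowerSeries (Fin r) 𝒪) (regSeq r ϖ) := by
  rw [regSeq, isWeaklyRegular_append_iff, isWeaklyRegular_singleton_iff]
  refine ⟨isWeaklyRegular_map_X _ (List.nodup_finRange r), isSMulRegular_C_quot _ _ ?_⟩
  exact (IsRegular.of_ne_zero hϖ).left.isSMulRegular

lemma ofList_regSeq {ϖ : 𝒪} (hϖ : Irreducible ϖ) :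
    Ideal.ofList (regSeq r ϖ) = maximalIdeal (MvPowerSeries (Fin r) 𝒪) := by
  ext f
  rw [regSeq, Ideal.ofList_append, Ideal.ofList_singleton, mem_maximalIdeal, mem_nonunits_iff,
    isUnit_iff_constantCoeff, ← mem_nonunits_iff, ← mem_maximalIdeal,
    hϖ.maximalIdeal_eq, Ideal.mem_span_singleton, Submodule.mem_sup]
  constructor
  · rintro ⟨g, hg, h, hh, rfl⟩
    rw [mem_ofList_map_X] at hg
    rw [Ideal.mem_span_singleton] at hh
    obtain ⟨c, rfl⟩ := hh
    have h0 : constantCoeff g = 0 := hg 0 (by simp)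
    rw [map_add, h0, zero_add, map_mul, constantCoeff_C]
    exact dvd_mul_right _ _
  · rintro ⟨c, hc⟩
    refine ⟨f - C (constantCoeff f), ?_, C (constantCoeff f), ?_, by ring⟩
    · rw [mem_ofList_map_X]
      intro m hm
      have : m = 0 := by
        ext j
        exact hm j (List.mem_finRange j)
      subst this
      simp
    · rw [Ideal.mem_span_singleton, hc, map_mul]
      exact dvd_mul_right _ _

lemma isRegular_regSeq {ϖ : 𝒪} (hϖ : Irreducible ϖ) :
    IsRegular (MvPowerSeries (Fin r) 𝒪) (regSeq r ϖ) := by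
  refine ⟨isWeaklyRegular_regSeq r hϖ.ne_zero, ?_⟩
  rw [ofList_regSeq r hϖ, smul_eq_mul, Ideal.mul_top]
  exact (Ideal.IsMaximal.ne_top inferInstance).symm

end dvr

end Fermat.Agent.S57
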