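import Fermat.Agent.S57.ProjDim

set_option autoImplicit false

open CategoryTheory Abelian IsLocalRing Module RingTheory.Sequence

namespace Fermat.Agent.S57

universe u

section

variable {S A : Type u} [CommRing S] [CommRing A] (φ : S →+* A)
  {N : Type u} [AddCommGroup N] [Module A N] {d : ℕ} (b : Fin d → N)

/-- The `φ`-semilinear map `c ↦ ∑ φ (c i) • b i`. -/
def combo : (Fin d → S) →ₛₗ[φ] N where
  toFun c := ∑ i, φ (c i) • b i
  map_add' c c' := by
    simp [add_smul, Finset.sum_add_distrib]
  map_smul' s c := by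
    simp [mul_smul, Finset.smul_sum]

lemma combo_apply (c : Fin d → S) : combo φ b c = ∑ i, φ (c i) • b i := rfl

lemma isWeaklyRegular_pi (rs : List S) (h : IsWeaklyRegular S rs) :
    IsWeaklyRegular (Fin d → S) rs :=
  ((TensorProduct.lid S (Fin d → S)).isWeaklyRegular_congr rs).mp
    (h.isWeaklyRegular_rTensor (M₂ := Fin d → S))

lemma isArtinian_pi_quot [IsLocalRing S] :
    IsArtinian S ((Fin d → S) ⧸ (maximalIdeal S • ⊤ : Submodule S (Fin d → S))) := by
  let : Field (S ⧸ maximalIdeal S) := Ideal.Quotient.field _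
  have : Module.Finite (S ⧸ maximalIdeal S)
      ((Fin d → S) ⧸ (maximalIdeal S • ⊤ : Submodule S (Fin d → S))) :=
    Module.Finite.of_restrictScalars_finite S _ _
  have : IsArtinian (S ⧸ maximalIdeal S)
      ((Fin d → S) ⧸ (maximalIdeal S • ⊤ : Submodule S (Fin d → S))) := inferInstance
  exact isArtinian_of_surjective_algebraMap (R := S ⧸ maximalIdeal S)
    Ideal.Quotient.mk_surjective

lemma isArtinian_of_semilinear_surjective {P Q : Type*} [AddCommGroup P] [Module S P]
    [AddCommGroup Q] [Module A Q] (g : P →ₛₗ[φ] Q) (hg : Function.Surjective g)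
    [IsArtinian S P] : IsArtinian A Q := by
  have hmono : StrictMono (Submodule.comap g : Submodule A Q → Submodule S P) := by
    intro p q hpq
    refine lt_of_le_of_ne (Submodule.comap_mono hpq.le) ?_
    intro h
    apply hpq.ne
    ext x
    obtain ⟨y, rfl⟩ := hg x
    rw [← Submodule.mem_comap, ← Submodule.mem_comap, h]
  exact hmono.wellFoundedLT

lemma isArtinian_quot [IsLocalRing S] (rs : List S) (hmax : Ideal.ofList rs = maximalIdeal S)
    (hspan : ∀ x : N, ∃ c : Fin d → S, x = ∑ i, φ (c i) • b i) :
    IsArtinian A (N ⧸ (Ideal.ofList (rs.map φ) • ⊤ : Submodule A N)) := by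
  let g : (Fin d → S) →ₛₗ[φ] (N ⧸ (Ideal.ofList (rs.map φ) • ⊤ : Submodule A N)) :=
    (Submodule.mkQ _).comp (combo φ b)
  have hker : (maximalIdeal S • ⊤ : Submodule S (Fin d → S)) ≤ LinearMap.ker g := by
    rw [Submodule.smul_le]
    intro s hs c _
    rw [LinearMap.mem_ker, map_smulₛₗ]
    change φ s • Submodule.Quotient.mk (combo φ b c) = 0
    rw [← Submodule.Quotient.mk_smul, Submodule.Quotient.mk_eq_zero]
    refine Submodule.smul_mem_smul ?_ Submodule.mem_top
    rw [← Ideal.map_ofList, hmax]
    exact Ideal.mem_map_of_mem φ hs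
  have hsurj : Function.Surjective (Submodule.liftQ _ g hker) := by
    intro x
    obtain ⟨y, rfl⟩ := Submodule.mkQ_surjective _ x
    obtain ⟨c, rfl⟩ := hspan y
    exact ⟨Submodule.Quotient.mk c, rfl⟩
  have := isArtinian_pi_quot (S := S) (d := d)
  exact isArtinian_of_semilinear_surjective φ _ hsurj

/-- If `N` is free of finite rank over a regular local ring `S` through `φ : S → A`, where `A`
is a regular local ring with a system of parameters of the same length, then `N` is free
over `A`. -/
theorem free_of_free_via [IsLocalRing S] [IsLocalRing A] [IsNoetherianRing A]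
    (rsS : List S) (hS : IsWeaklyRegular S rsS) (hSmax : Ideal.ofList rsS = maximalIdeal S)
    (rsA : List A) (hA : IsRegular A rsA) (hAmax : Ideal.ofList rsA = maximalIdeal A)
    (hlen : rsS.length = rsA.length) (hloc : ∀ s ∈ rsS, φ s ∈ maximalIdeal A)
    (hspan : ∀ x : N, ∃ c : Fin d → S, x = ∑ i, φ (c i) • b i)
    (hrel : ∀ c : Fin d → S, ∑ i, φ (c i) • b i = 0 → ∀ i, c i = 0) :
    Module.Free A N := by
  have hinj : Function.Injective (combo φ b) := by
    rw [injective_iff_map_eq_zero]
    intro c hc
    funext i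
    exact hrel c hc i
  have hsurj : Function.Surjective (combo φ b) := by
    intro x
    obtain ⟨c, rfl⟩ := hspan x
    exact ⟨c, rfl⟩
  let e : (Fin d → S) ≃+ N := AddEquiv.ofBijective (combo φ b).toAddMonoidHom ⟨hinj, hsurj⟩
  have hys : IsWeaklyRegular N (rsS.map φ) := by
    refine (e.isWeaklyRegular_congr ?_).mp (isWeaklyRegular_pi (d := d) rsS hS)
    refine List.forall₂_map_right_iff.mpr (List.forall₂_same.mpr fun s _ x => ?_)
    exact (combo φ b).map_smulₛₗ s x
  have hfin : Module.Finite A N := by
    refine Module.Finite.of_surjective (Fintype.linearCombination A b) ?_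
    intro x
    obtain ⟨c, rfl⟩ := hspan x
    exact ⟨fun i => φ (c i), by simp [Fintype.linearCombination_apply]⟩
  refine free_of_regular_sequences rsA hA hAmax (rsS.map φ) hys ?_ (by simpa using hlen)
    (isArtinian_quot φ b rsS hSmax hspan)
  intro y hy
  obtain ⟨s, hs, rfl⟩ := List.mem_map.mp hy
  exact hloc s hs

end

end Fermat.Agent.S57
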