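import Mathlib.RingTheory.Regular.ProjectiveDimension
import Mathlib.RingTheory.FiniteLength
import Mathlib.RingTheory.SimpleModule.Basic

set_option autoImplicit false

open CategoryTheory Abelian IsLocalRing Module RingTheory.Sequence

namespace Fermat.Agent.S57

universe u

variable {A : Type u} [CommRing A] [IsLocalRing A] [IsNoetherianRing A]

omit [IsNoetherianRing A] in
lemma hasProjDimLT_of_isFiniteLength (n : ℕ)
    (hk : HasProjectiveDimensionLT (ModuleCat.of A (A ⧸ maximalIdeal A)) n)
    {Q : Type u} [AddCommGroup Q] [Module A Q] (hQ : IsFiniteLength A Q) :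
    HasProjectiveDimensionLT (ModuleCat.of A Q) n := by
  induction hQ with
  | @of_subsingleton M _ _ _ =>
    have hz : Limits.IsZero (ModuleCat.of A M) := ModuleCat.isZero_of_subsingleton _
    have := hz.hasProjectiveDimensionLT_zero
    exact hasProjectiveDimensionLT_of_ge _ 0 n (Nat.zero_le n)
  | @of_simple_quotient M _ _ P hs _ ih =>
    obtain ⟨m, hm, ⟨e⟩⟩ := isSimpleModule_iff_quot_maximal.mp hs
    obtain rfl := eq_maximalIdeal hm
    have hS := LinearMap.shortExact_shortComplexKer (f := P.mkQ) P.mkQ_surjective
    have h3 : HasProjectiveDimensionLT (ModuleCat.of A (M ⧸ P)) n :=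
      hasProjectiveDimensionLT_of_iso e.symm.toModuleIso n
    have h1 : HasProjectiveDimensionLT (ModuleCat.of A (LinearMap.ker P.mkQ)) n :=
      hasProjectiveDimensionLT_of_iso (LinearEquiv.ofEq _ _ P.ker_mkQ.symm).toModuleIso n
    exact hS.hasProjectiveDimensionLT_X₂ n h1 h3

/-- A finitely generated module over a Noetherian local ring whose maximal ideal is generated by
a regular sequence `rs`, admitting a weakly regular sequence `ys` of the same length in the maximal
ideal with finite length quotient, is free. -/
theorem free_of_regular_sequences (rs : List A) (hrs : IsRegular A rs)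
    (hmax : Ideal.ofList rs = maximalIdeal A)
    {N : Type u} [AddCommGroup N] [Module A N] [Module.Finite A N]
    (ys : List A) (hys : IsWeaklyRegular N ys) (hmem : ∀ y ∈ ys, y ∈ maximalIdeal A)
    (hlen : ys.length = rs.length)
    (hfl : IsArtinian A (N ⧸ Ideal.ofList ys • (⊤ : Submodule A N))) :
    Module.Free A N := by
  rcases subsingleton_or_nontrivial N with hN | hN
  · exact Module.Free.of_subsingleton A N
  have hk : projectiveDimension (ModuleCat.of A (Shrink.{u} (A ⧸ Ideal.ofList rs))) = rs.length :=
    ModuleCat.projectiveDimension_quotient_eq_length rs hrs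
  have hk' : HasProjectiveDimensionLT (ModuleCat.of A (A ⧸ maximalIdeal A)) (rs.length + 1) := by
    rw [← hmax]
    have : HasProjectiveDimensionLE (ModuleCat.of A (Shrink.{u} (A ⧸ Ideal.ofList rs)))
        rs.length := by
      rw [← projectiveDimension_le_iff, hk]
    exact hasProjectiveDimensionLT_of_iso
      (Shrink.linearEquiv A (A ⧸ Ideal.ofList rs)).toModuleIso _
  have hQ : IsFiniteLength A (N ⧸ Ideal.ofList ys • (⊤ : Submodule A N)) :=
    isFiniteLength_iff_isNoetherian_isArtinian.mpr ⟨inferInstance, hfl⟩
  have hQ' := hasProjDimLT_of_isFiniteLength (rs.length + 1) hk' hQ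
  have key := ModuleCat.projectiveDimension_quotient_eq_add_length_of_isWeaklyRegular
    (ModuleCat.of A N) ys hys hmem
  have h1 : projectiveDimension (ModuleCat.of A N) + (ys.length : ℕ) ≤ (rs.length : ℕ) := by
    rw [← key, projectiveDimension_le_iff]; exact hQ'
  rw [hlen] at h1
  have h2 : projectiveDimension (ModuleCat.of A N) ≤ (0 : ℕ) := by
    have h3 : projectiveDimension (ModuleCat.of A N) + (rs.length : ℕ) ≤
        ((0 : ℕ) : WithBot ℕ∞) + (rs.length : ℕ) := by simpa using h1
    exact (ENat.WithBot.add_le_add_natCast_right_iff).mp h3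
  rw [projectiveDimension_le_iff] at h2
  have h4 : Projective (ModuleCat.of A N) :=
    (projective_iff_hasProjectiveDimensionLE_zero _).mpr h2
  have h5 : Module.Projective A N := (IsProjective.iff_projective N).mpr h4
  exact Module.free_of_flat_of_isLocalRing

end Fermat.Agent.S57
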